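import Fermat.Statements.S02
-- import your own Fermat.Agent.* helpers here

set_option autoImplicit false
open FreyPackage

namespace Fermat.Agent.S02

/-- Step 3: a coprime solution with `b` even yields a Frey package (flip all signs if needed). -/
theorem of_coprime_b_even {a b c : ℤ} (ha : a ≠ 0) (hb : b ≠ 0) (hc : c ≠ 0) {p : ℕ}
    (pp : p.Prime) (hp5 : 5 ≤ p) (H : a ^ p + b ^ p = c ^ p) (hgcd : Int.gcd a b = 1)
    (hb2 : (2 : ℤ) ∣ b) : Nonempty FreyPackage := by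
  have p_odd : Odd p := pp.odd_of_ne_two (by omega)
  have ha_odd : ¬ (2 : ℤ) ∣ a := by
    intro h2a
    have h2 : (2 : ℤ) ∣ (Int.gcd a b : ℤ) := Int.dvd_coe_gcd h2a hb2
    rw [hgcd] at h2
    norm_num at h2
  have hb2' : (b : ZMod 2) = 0 := (ZMod.intCast_zmod_eq_zero_iff_dvd b 2).2 hb2
  have h4 : a % 4 = 1 ∨ a % 4 = 3 := by omega
  rcases h4 with h4 | h4
  · refine ⟨⟨-a, -b, -c, neg_ne_zero.mpr ha, neg_ne_zero.mpr hb, neg_ne_zero.mpr hc, p, pp, hp5,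
      ?_, ?_, ?_, ?_⟩⟩
    · rw [p_odd.neg_pow, p_odd.neg_pow, p_odd.neg_pow, ← H]; ring
    · change ((Int.gcd (-a) (-b) : ℕ) : ℤ) = 1
      rw [Int.neg_gcd, Int.gcd_neg, hgcd]; rfl
    · have h : ((-a : ℤ) : ZMod 4) = ((3 : ℤ) : ZMod 4) := by
        rw [ZMod.intCast_eq_intCast_iff_dvd_sub]
        omega
      simpa using h
    · simpa using hb2'
  · refine ⟨⟨a, b, c, ha, hb, hc, p, pp, hp5, H, ?_, ?_, hb2'⟩⟩
    · change ((Int.gcd a b : ℕ) : ℤ) = 1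
      rw [hgcd]; rfl
    · have h : ((a : ℤ) : ZMod 4) = ((3 : ℤ) : ZMod 4) := by
        rw [ZMod.intCast_eq_intCast_iff_dvd_sub]
        omega
      simpa using h

/-- Step 2: a coprime solution yields a Frey package (permute so that `b` is even). -/
theorem of_coprime {a b c : ℤ} (ha : a ≠ 0) (hb : b ≠ 0) (hc : c ≠ 0) {p : ℕ}
    (pp : p.Prime) (hp5 : 5 ≤ p) (H : a ^ p + b ^ p = c ^ p) (hgcd : Int.gcd a b = 1) :
    Nonempty FreyPackage := by
  have p_odd : Odd p := pp.odd_of_ne_two (by omega)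
  have hp0 : p ≠ 0 := by omega
  by_cases hb2 : (2 : ℤ) ∣ b
  · exact of_coprime_b_even ha hb hc pp hp5 H hgcd hb2
  by_cases ha2 : (2 : ℤ) ∣ a
  · exact of_coprime_b_even hb ha hc pp hp5 (by rw [add_comm]; exact H)
      (by rw [Int.gcd_comm]; exact hgcd) ha2
  -- both `a` and `b` are odd, so `c` is even
  have hc2 : (2 : ℤ) ∣ c := by
    have ha' : Odd a := by rwa [← Int.not_even_iff_odd, even_iff_two_dvd]
    have hb' : Odd b := by rwa [← Int.not_even_iff_odd, even_iff_two_dvd]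
    have hsum : Even (a ^ p + b ^ p) := (ha'.pow).add_odd (hb'.pow)
    rw [H] at hsum
    have hc' : Even c := (Int.even_pow.1 hsum).1
    exact even_iff_two_dvd.1 hc'
  have hgcdac : Int.gcd a c = 1 := by
    have h := FreyPackage.gcdab_eq_gcdac (Nat.pos_of_ne_zero hp0) H
    change ((Int.gcd a b : ℕ) : ℤ) = ((Int.gcd a c : ℕ) : ℤ) at h
    rw [hgcd] at h
    exact_mod_cast h.symm
  refine of_coprime_b_even (a := a) (b := -c) (c := -b) ha (neg_ne_zero.mpr hc)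
    (neg_ne_zero.mpr hb) pp hp5 ?_ ?_ ((dvd_neg).2 hc2)
  · rw [p_odd.neg_pow, p_odd.neg_pow, ← H]; ring
  · rw [Int.gcd_neg]; exact hgcdac

theorem result (a b c : ℤ) (ha : a ≠ 0) (hb : b ≠ 0) (hc : c ≠ 0) (p : ℕ) (pp : p.Prime) (hp5 : 5 ≤ p) (H : a ^ p + b ^ p = c ^ p) : Nonempty FreyPackage := by
  have hp0 : p ≠ 0 := by omega
  -- divide out by `d = gcd a b`
  have hd0 : Int.gcd a b ≠ 0 := by
    intro h
    exact ha (Int.gcd_eq_zero_iff.1 h).1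
  have hdpos : 0 < Int.gcd a b := Nat.pos_of_ne_zero hd0
  have hdz : ((Int.gcd a b : ℕ) : ℤ) ≠ 0 := by exact_mod_cast hd0
  obtain ⟨a', ha'⟩ : ((Int.gcd a b : ℕ) : ℤ) ∣ a := Int.gcd_dvd_left a b
  obtain ⟨b', hb'⟩ : ((Int.gcd a b : ℕ) : ℤ) ∣ b := Int.gcd_dvd_right a b
  have hdc : ((Int.gcd a b : ℕ) : ℤ) ∣ c := by
    rw [← Int.pow_dvd_pow_iff hp0, ← H]
    exact dvd_add (pow_dvd_pow_of_dvd (Int.gcd_dvd_left a b) p)
      (pow_dvd_pow_of_dvd (Int.gcd_dvd_right a b) p)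
  obtain ⟨c', hc'⟩ := hdc
  have ha'0 : a' ≠ 0 := by
    rintro rfl; exact ha (by rw [ha']; simp)
  have hb'0 : b' ≠ 0 := by
    rintro rfl; exact hb (by rw [hb']; simp)
  have hc'0 : c' ≠ 0 := by
    rintro rfl; exact hc (by rw [hc']; simp)
  have H' : a' ^ p + b' ^ p = c' ^ p := by
    have h1 : ((Int.gcd a b : ℕ) : ℤ) ^ p * (a' ^ p + b' ^ p)
        = ((Int.gcd a b : ℕ) : ℤ) ^ p * c' ^ p := by
      have h2 : ((Int.gcd a b : ℕ) : ℤ) ^ p * (a' ^ p + b' ^ p)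
          = (((Int.gcd a b : ℕ) : ℤ) * a') ^ p + (((Int.gcd a b : ℕ) : ℤ) * b') ^ p := by ring
      rw [h2, ← ha', ← hb', H, ← mul_pow, ← hc']
    exact mul_left_cancel₀ (pow_ne_zero p hdz) h1
  have hgcd' : Int.gcd a' b' = 1 := by
    have h3 : Int.gcd (((Int.gcd a b : ℕ) : ℤ) * a') (((Int.gcd a b : ℕ) : ℤ) * b')
        = Int.gcd a b * Int.gcd a' b' := by
      rw [Int.gcd_mul_left]; simp
    rw [← ha', ← hb'] at h3
    have h4 : Int.gcd a b * Int.gcd a' b' = Int.gcd a b * 1 := by rw [mul_one]; exact h3.symm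
    exact Nat.eq_of_mul_eq_mul_left hdpos h4
  exact of_coprime ha'0 hb'0 hc'0 pp hp5 H' hgcd'

end Fermat.Agent.S02
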