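import Fermat.Statements.S10
-- import your own Fermat.Agent.* helpers here
import Fermat.Agent.Lib.FLTSmallOfKummer
import Fermat.Agent.Lib.KummerLemmaB

set_option autoImplicit false
open WeierstrassCurve WeierstrassCurve.Affine WeierstrassCurve.Affine.Point
open CuspForm ModularFormClass UpperHalfPlane
open FreyPackage

namespace Fermat.Agent.S10

/-!
The hypotheses are contradictory: a Frey package with `p ∈ {5, 7, 13}` is a counterexample to
Fermat's Last Theorem for a regular prime exponent.  We prove FLT for the exponents 5, 7, 13 by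
Kummer's method (Sophie Germain's theorem for case I; for case II Kummer's descent in `ℤ[ζ_p]`,
which is a principal ideal domain, together with Kummer's lemma on units).
-/

set_option backward.isDefEq.respectTransparency false in
/-- Fermat's Last Theorem for exponent 5 (coprime integer form). -/
theorem flt_five {a b c : ℤ} (ha : a ≠ 0) (hb : b ≠ 0) (hc : c ≠ 0) (hab : IsCoprime a b) :
    a ^ 5 + b ^ 5 ≠ c ^ 5 :=
  Fermat.Agent.Lib.FLTSmallOfKummer.flt_five_of_kummer (K := CyclotomicField 5 ℚ)
    (fun u h => Fermat.Agent.Lib.KummerLemmaB.kummer_five u h) ha hb hc hab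

set_option backward.isDefEq.respectTransparency false in
/-- Fermat's Last Theorem for exponent 7 (coprime integer form). -/
theorem flt_seven {a b c : ℤ} (ha : a ≠ 0) (hb : b ≠ 0) (hc : c ≠ 0) (hab : IsCoprime a b) :
    a ^ 7 + b ^ 7 ≠ c ^ 7 :=
  Fermat.Agent.Lib.FLTSmallOfKummer.flt_seven_of_kummer (K := CyclotomicField 7 ℚ)
    (fun u h => Fermat.Agent.Lib.KummerLemmaB.kummer_seven u h) ha hb hc hab

set_option backward.isDefEq.respectTransparency false in
/-- Fermat's Last Theorem for exponent 13 (coprime integer form). -/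
theorem flt_thirteen {a b c : ℤ} (ha : a ≠ 0) (hb : b ≠ 0) (hc : c ≠ 0) (hab : IsCoprime a b) :
    a ^ 13 + b ^ 13 ≠ c ^ 13 :=
  Fermat.Agent.Lib.FLTSmallOfKummer.flt_thirteen_of_kummer (K := CyclotomicField 13 ℚ)
    (fun u h => Fermat.Agent.Lib.KummerLemmaB.kummer_thirteen u h) ha hb hc hab

/-- The two first entries of a Frey package are coprime. -/
theorem isCoprime_ab (P : FreyPackage) : IsCoprime P.a P.b := by
  rw [Int.isCoprime_iff_gcd_eq_one]
  have h := P.hgcdab
  rw [← Int.coe_gcd] at h
  exact_mod_cast h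

theorem result (P : FreyPackage) (hp : P.p = 5 ∨ P.p = 7 ∨ P.p = 13) : ¬ HasGaloisStableCofixedLine (K := AlgebraicClosure ℚ) ℚ P.freyCurve P.p := by
  intro _
  have hab : IsCoprime P.a P.b := isCoprime_ab P
  have h := P.hFLT
  rcases hp with hp | hp | hp
  · rw [hp] at h
    exact flt_five P.ha0 P.hb0 P.hc0 hab h
  · rw [hp] at h
    exact flt_seven P.ha0 P.hb0 P.hc0 hab h
  · rw [hp] at h
    exact flt_thirteen P.ha0 P.hb0 P.hc0 hab h

end Fermat.Agent.S10
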