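import Fermat.Statements.S11
import Fermat.Agent.Lib.FLTSmallOfKummer
import Fermat.Agent.Lib.Kummer11

set_option autoImplicit false
open WeierstrassCurve WeierstrassCurve.Affine WeierstrassCurve.Affine.Point
open CuspForm ModularFormClass UpperHalfPlane
open FreyPackage

namespace Fermat.Agent.S11

/-- Fermat's Last Theorem for the exponent 11, coprime integer form (Kummer: `ℤ[ζ₁₁]` is a PID,
Kummer's lemma for 11, Sophie Germain for case I, descent for case II). -/
theorem flt_eleven {a b c : ℤ} (ha : a ≠ 0) (hb : b ≠ 0) (hc : c ≠ 0) (hab : IsCoprime a b) :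
    a ^ 11 + b ^ 11 ≠ c ^ 11 := by
  have hcyc : IsCyclotomicExtension {11} ℚ (CyclotomicField 11 ℚ) :=
    CyclotomicField.isCyclotomicExtension 11 ℚ
  exact Fermat.Agent.Lib.FLTSmallOfKummer.flt_eleven_of_kummer (K := CyclotomicField 11 ℚ)
    (fun u h => Fermat.Agent.Lib.Kummer11.kummer_lemma u h) ha hb hc hab

/-- A Frey package with `p = 11` cannot exist. -/
theorem false_of_freyPackage_eleven (P : FreyPackage) (hp : P.p = 11) : False := by
  have h := P.hFLT
  rw [hp] at h
  have hab : IsCoprime P.a P.b := by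
    rw [Int.isCoprime_iff_gcd_eq_one]
    have h1 : ((Int.gcd P.a P.b : ℕ) : ℤ) = 1 := P.hgcdab
    exact_mod_cast h1
  exact flt_eleven P.ha0 P.hb0 P.hc0 hab h

theorem result (P : FreyPackage) (hp : P.p = 11) : ¬ HasGaloisStableCofixedLine (K := AlgebraicClosure ℚ) ℚ P.freyCurve P.p := by
  exact (false_of_freyPackage_eleven P hp).elim

end Fermat.Agent.S11
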