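import Fermat.Statements.S13
import Fermat.Agent.S13.Defs
import Fermat.Agent.S13.DivExistsB
import Fermat.Agent.S13.Spec
import Fermat.Agent.S13.CountA
import Fermat.Agent.S13.Prod
import Fermat.Agent.S13.KumExtra
import Fermat.Agent.S13.Trop2B
import Fermat.Agent.S13.Tors2
import Fermat.Agent.S13.Deepen2
import Fermat.Agent.S13.E1Add
import Fermat.Agent.S13.InertSing
import Fermat.Agent.S13.InertNs
import Fermat.Agent.S13.Loc2Abs
import Fermat.Agent.S13.LocPAbs
import Fermat.Agent.S13.Alpha
import Fermat.Agent.S13.LinAlg
import Fermat.Agent.S13.InertiaLiftB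
import Fermat.Agent.S13.MinkFinB
import Fermat.Agent.S13.Mink
import Fermat.Agent.S13.FreyCard
import Fermat.Agent.S13.Local2B
import Fermat.Agent.S13.LocalPB
import Fermat.Agent.S13.Final

set_option autoImplicit false
open WeierstrassCurve WeierstrassCurve.Affine WeierstrassCurve.Affine.Point
open CuspForm ModularFormClass UpperHalfPlane
open FreyPackage

namespace Fermat.Agent.S13

theorem result (P : FreyPackage) (hred : ¬ GaloisRepIsIrreducible (K := AlgebraicClosure ℚ) ℚ P.freyCurve P.p) : HasGaloisStableCofixedLine (K := AlgebraicClosure ℚ) ℚ P.freyCurve P.p := by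
  -- Part A: division polynomial data, the number of torsion points, the product formula
  have hDE : DivExistsStatement := deb_divExists
  have hSp : SpecStatement := spc_spec
  have hCt : CountStatement := cta_count hDE hSp
  have hPr : ProdStatement := prd_prod hDE hSp hCt
  have hKx : KumExtraStatement := kxt_kumExtra
  -- valuation-theoretic lemmas on the Kummer line
  have hT2 : Trop2Statement := t2b_trop2
  have hTo : Tors2Statement := tr2_tors2 hT2
  have hD2 : Deepen2Statement := dp2_deepen2
  have hE1 : E1AddStatement := e1a_e1Add
  have hIS : InertSingStatement := ins_inertSing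
  have hIN : InertNsStatement := inn_inertNs
  have hL2 : Loc2AbsStatement := l2a_loc2Abs hTo hD2 hIS hIN
  have hLG : LocPGoodStatement := lpa_good hE1 hIN
  have hLM : LocPMultStatement := lpa_mult hE1 hTo hIS hIN
  have hAl : AlphaStatement := alp_alpha
  have hPS : PairSumStatement := alp_pairSum
  have hLA1 : LA1Statement := lna_la1
  have hLA2 : LA2Statement := lna_la2
  have hRV : RatValStatement := lna_ratVal
  -- Galois theory: inertia and Minkowski
  have hIL : InertiaLiftStatement := ilb_inertiaLift
  have hMF : MinkFinStatement := mfb_minkFin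
  have hMk : MinkStatement := mnk_mink hIL hMF
  -- the Frey curve
  have hFC : FreyCardStatement := frc_card hKx hCt
  have hFO : FreyOpenStatement := frc_open hFC
  have hLoc2 : Local2Statement := lcb_local2 hL2 hKx hFC hLA2
  have hLoc2R : Local2RatStatement := lcb_local2Rat hL2 hKx hRV
  have hLocP : LocalPStatement := lpy_localP hLG hLM hAl hPS hPr hKx hFC hRV hLA1
  exact fin13_main hFC hFO hLoc2 hLoc2R hLocP hMk P hred

end Fermat.Agent.S13
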