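import Fermat.Statements.S14
import Fermat.Agent.S14.RMain
import Fermat.Agent.S14.ZMain
import Fermat.Agent.S14.RGaussTMain
import Fermat.Agent.S14.RJacobiTMain
import Fermat.Agent.S14.RLangT
import Fermat.Agent.S14.REMain
import Fermat.Agent.S14.KMain
import Fermat.Agent.S14.HMain
import Fermat.Agent.S14.PMain

set_option autoImplicit false
open ExtCitation

namespace Fermat.Agent.S14

theorem result {p : ℕ} [Fact p.Prime] (h3 : 3 ≤ p) :
    ExtCitation.ExtVanishingCts p := by
  -- zeta pole argument
  have hK3 : K3Statement := z_k3
  -- first inequality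
  have hG1T : G1TameStatement := h_g1tame
  have hG1 : G1Statement := h_g1
  -- second inequality
  have hG2 : G2Statement := k_g2 hG1T hK3
  -- reciprocity via power-residue symbols and Gauss sums
  have hGauss : GaussElementStatement := rgt_gaussElement rss_symbSpec rcsb_cycloSplit
  have hE : EFieldStatement := re_eField hG2 hGauss
  have hL : LangStatement := rlt_lang hE
  have hJ : JacobiStatement := rjt_jacobi rcsb_cycloSplit
  have hR : TheoremRStatement := rmain_theoremR hJ hL hG1 hK3
  -- glue
  exact p_glue hR p h3

end Fermat.Agent.S14
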