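import Fermat.Statements.S18
import Fermat.Agent.S18.EMain
import Fermat.Agent.S18.EEGMainT
import Fermat.Agent.S18.EIntClT
import Fermat.Agent.S18.ELSFactT
import Fermat.Agent.S18.ELSInt
import Fermat.Agent.S18.EGlobal
import Fermat.Agent.S18.EIntFinT
import Fermat.Agent.S18.EH1Gen
import Fermat.Agent.S18.ECap
import Fermat.Agent.S18.EConn
import Fermat.Agent.S18.ELocalUFD
import Fermat.Agent.S18.EUFDLocT
import Fermat.Agent.S18.EUFDPowT
import Fermat.Agent.S18.GAMainGauss
import Fermat.Agent.S18.GAMainChart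
import Fermat.Agent.S18.GAMainFin
import Fermat.Agent.S18.GAMainSep
import Fermat.Agent.S18.SmMain

set_option autoImplicit false
open ModularCurve

namespace Fermat.Agent.S18

/-- The endgame (plan §4): no counterexample to CORE (*) survives smoothness. -/
theorem e_endgame : e_EndgameStatement :=
  e_egmainT_main ga_gauss ga_chart ga_fin e_intclT_main
    (e_lsfactT_main e_localufd_main e_ufdlocT_main e_ufdpowT_main) (e_lsint_main e_intclT_main)
    e_global_main e_intfinT_main e_h1gen_main e_cap_main e_conn_main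

theorem result (N : ℕ) [NeZero N] {ℓ : ℕ}
    [Fact ℓ.Prime] (hℓN : ¬ ℓ ∣ N) (A : ValuationSubring (AlgebraicClosure ℚ)) (hA : A.LiesOverPrime ℓ)
    (h : ModularCurve.ReductionInputsModL A N) (m : ℕ) (hm : ¬ ℓ ∣ m) (z : ModularCurve.JZero N)
    (hmz : m • z = 0) (hz : ModularCurve.reductionModL A N z = 0) :
    z = 0 :=
  e_result_of e_endgame sm_main ga_sep N hℓN A hA h m hm z hmz hz

end Fermat.Agent.S18
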