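import Fermat.Statements.S20
import Fermat.Agent.S20.Assembly

set_option autoImplicit false
open CuspForm

namespace Fermat.Agent.S20

theorem result (N : ℕ) [NeZero N] :
    (Module.finrank ℂ (CuspForm (CongruenceSubgroup.Gamma0 N) 2) : ℚ) = ModularCurve.genusFormula N := by
  obtain ⟨k, f, hgen, hind, τ₀, hτ₀⟩ := exists_basis_X N
  obtain ⟨c, hW⟩ := wronskian N k f hgen
  have hΔ : ∀ τ : UpperHalfPlane, ModularForm.discriminant τ ^ (∑ y, k y) ≠ 0 := fun τ =>
    zpow_ne_zero _ (ModularForm.discriminant_ne_zero τ)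
  have hc : c ≠ 0 := by
    rintro rfl
    have := hW τ₀
    rw [zero_mul] at this
    exact hτ₀ (pow_eq_zero_iff (by norm_num) |>.mp this)
  have hdet : ∀ τ : UpperHalfPlane, (Fmat k f τ).det ≠ 0 := by
    intro τ h0
    have := hW τ
    rw [h0, zero_pow (by norm_num)] at this
    exact mul_ne_zero hc (hΔ τ) this.symm
  have hsum := cusp_sum_weights N k f hgen hind c hc hW
  have hdual := dual_cusp N k f hgen hind c hc hW
  obtain ⟨hk, hm0, hS2⟩ := weights_and_S2 N k f hgen hind hdet hdual
  have hS := elliptic_S N k f hdet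
  obtain ⟨ζ, hζ, hST⟩ := elliptic_ST N k f hdet
  rw [fixCount_S] at hS
  rw [fixCount_ST] at hST
  have hT := sum_fixCount_T_pow N
  have hsum' : ∑ y, k y = 6 * ((ModularCurve.dedekindPsi N : ℤ) - ModularCurve.cuspCount N) := by
    have hT' : (∑ m ∈ Finset.range N, (fixCount N (ModularGroup.T ^ m) : ℤ)) =
        (N : ℤ) * ModularCurve.cuspCount N := by exact_mod_cast hT
    rw [hT', card_X] at hsum
    have hN : (N : ℤ) ≠ 0 := by exact_mod_cast NeZero.ne N
    apply mul_left_cancel₀ hN
    rw [hsum]; ring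
  have := final_arith k hk (ModularCurve.dedekindPsi N) (ModularCurve.nuTwo N)
    (ModularCurve.nuThree N) (ModularCurve.cuspCount N) (card_X N) hm0 hS ζ hζ hST hsum'
  rw [ModularCurve.genusFormula, ← this]
  exact_mod_cast hS2

end Fermat.Agent.S20
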