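import Fermat.Statements.S24
-- import your own Fermat.Agent.* helpers here
import Fermat.Agent.S24.Top
import Fermat.Agent.S24.RH
import Fermat.Agent.S24.Ree
import Fermat.Agent.S24.CombCusp
import Fermat.Agent.S24.CombIndex
import Fermat.Agent.S24.ModelCounts
import Fermat.Agent.S24.JSurj
import Fermat.Agent.S24.Conj
import Fermat.Agent.S24.JLocal
import Fermat.Agent.S24.LemmaP
import Fermat.Agent.S24.PointVal
import Fermat.Agent.S24.Places
import Fermat.Agent.S24.Zeros
import Fermat.Agent.S24.GalB
import Fermat.Agent.S24.DiffB
import Fermat.Agent.S24.FormalQ
import Fermat.Agent.S24.Qexp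
import Fermat.Agent.S24.PreModelBuild
import Fermat.Agent.S24.ModelAlg

set_option autoImplicit false
open ModularCurve

namespace Fermat.Agent.S24

theorem result (N : ℕ) [NeZero N]
    [AlgebraicCurve.HasCanonicalDivisor (K := AlgebraicClosure ℚ) (F := ↥(ModularCurve.modularFunctionFieldBar N))] :
    (AlgebraicCurve.genus (AlgebraicClosure ℚ) ↥(ModularCurve.modularFunctionFieldBar N) : ℚ)
      = ModularCurve.genusFormula N := by
  -- function fields of one variable over an algebraically closed field
  have hZeros : ZerosStatement := Zeros.zerosStatement
  have hPoles : PolesStatement := Zeros.polesStatement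
  have hRH : RHStatement := RH.rhStatement hZeros hPoles Places.degOneStatement
    Places.centerStatement (Places.principalStatement hZeros hPoles) (DiffB.diffStatement hZeros)
  have hG : GalStatement := GalB.galStatement hZeros hPoles
  -- the analytic theory of modular functions
  have hQexp : QexpStatement := Qexp.qexpStatement
  have hJB : JBasicStatement := JLocal.jBasicStatement
  have hJO : JOrdersStatement := JLocal.jOrdersStatement
  have hJQ : JQexpStatement := FormalQ.jQexpStatement hQexp
  have hLP : LemmaPStatement := LemmaP.lemmaPStatement hJB hJQ hQexp
  have hCj : ConjStatement := Conj.conjStatement hJB hJQ hQexp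
  have hJS : JSurjStatement := JSurj.jSurjStatement hJB
  have hPV : PointValStatement := PointVal.pointValStatement
  have hPM : PreModelStatement :=
    PreModelBuild.preModelStatement hJB hJO hJS hJQ hQexp hLP hCj hPV
  have hMM : ModularModelStatement :=
    ModelAlg.modularModelStatement hPM Places.valuationPlaceStatement
  -- place counts, combinatorics of SL(2, ℤ) ⧸ Γ₀(N), and Riemann–Hurwitz
  have hMC : ModelCountsStatement := ModelCounts.modelCountsStatement hG hZeros hMM
  exact Top.genus_eq_genusFormula hRH hMC CombIndex.combIndexStatement
    CombIndex.combEllipticStatement CombCusp.combCuspStatement Ree.reeStatement N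

end Fermat.Agent.S24
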