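import Fermat.Statements.S28
-- import your own Fermat.Agent.* helpers here
import Fermat.Agent.S28.SchemeGlue
import Fermat.Agent.S28.TensorDomain
import Fermat.Agent.S28.ChartInt
import Fermat.Agent.S28.ChartRed
import Fermat.Agent.S28.DegMain
import Fermat.Agent.S28.KAMain
import Fermat.Agent.S28.PBMain
import Fermat.Agent.S28.TAMain
import Fermat.Agent.S28.CMain

set_option autoImplicit false
open AlgebraicGeometry CategoryTheory CategoryTheory.Limits ModularCurve ModularCurve.IgusaScheme
noncomputable section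
set_option autoImplicit false
open ModularCurve ModularCurve.IgusaScheme

namespace Fermat.Agent.S28

/-- Igusa: for `ℓ ∤ N` each chart algebra of the Igusa model has a reduction map to `𝔽_ℓ((q))` with
kernel `(ℓ)` (assembly of the blocks: Part C = characteristic zero inputs, Prime = prime level mod `ℓ`,
Tower = degree mod `ℓ`, DegMain, ChartKernel = saturation, ChartInt, ChartRed). -/
theorem s28_chartRed : ChartRedStatement :=
  chartRed_main chartInt_jInt chartInt_main
    (ka_main c_char0Deg
      (degMain_main c_char0Deg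
        (ta_main c_modEq (pb_irred c_modEq (pb_level c_modEq c_hasse)))))

set_option maxHeartbeats 4000000 in
set_option synthInstance.maxHeartbeats 400000 in
theorem result
    (N : ℕ) [NeZero N] (ℓ : ℕ) [Fact ℓ.Prime] (hℓN : ¬ ℓ ∣ N)
    (K : Type) [Field K] [CharP K ℓ] [Algebra ↥(GaloisRep.ratLocalizedAt ℓ) K] :
    IsIntegral ↑(pullback (igusaTo N ℓ)
      (Spec.map (CommRingCat.ofHom (algebraMap ↥(GaloisRep.ratLocalizedAt ℓ) K)))) := by
  have key : ∀ S : Set ↥(modularFunctionFieldFull N),
      (S = {jFull N} ∨ S = {(jFull N)⁻¹} ∨ S = {jFull N, (jFull N)⁻¹}) →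
      IsDomain (TensorProduct ↥(GaloisRep.ratLocalizedAt ℓ) ↥(chartAlg N ℓ S) K) := by
    intro S hS
    obtain ⟨ρ, hρ⟩ := s28_chartRed N ℓ hℓN S hS
    exact tensorDomain_main ℓ K ↥(chartAlg N ℓ S) ρ hρ
  have hfin := key {jFull N} (Or.inl rfl)
  have hinf := key {(jFull N)⁻¹} (Or.inr (Or.inl rfl))
  have hmid := key {jFull N, (jFull N)⁻¹} (Or.inr (Or.inr rfl))
  exact schemeGlue_main N ℓ K hfin hinf (by have := hmid; infer_instance)

end Fermat.Agent.S28
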