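import Fermat.Statements.S37
import Fermat.Agent.S37.RMain
import Fermat.Agent.S37.RAMain
import Fermat.Agent.S37.GALB
import Fermat.Agent.S37.ASMB
import Fermat.Agent.S37.CNMain
import Fermat.Agent.S37.HIMain
import Fermat.Agent.S37.KRMain
import Fermat.Agent.S37.HIValDirect
import Fermat.Agent.S37.VALKernel
import Fermat.Agent.S37.VALRedCalcA
import Fermat.Agent.S37.VALTwistA
import Fermat.Agent.S37.VALKR3A
import Fermat.Agent.S37.VALChartPresA
import Fermat.Agent.S37.VALValuesModA
import Fermat.Agent.S37.VALChartAA
import Fermat.Agent.S37.VALCharpolyIntA
import Fermat.Agent.S37.VALKeyA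
import Fermat.Agent.S37.VALMultisetA
import Fermat.Agent.S37.VALIntegralityA
import Fermat.Agent.S37.VALR3CoreA
import Fermat.Agent.S37.VALR4CoreB
import Fermat.Agent.S37.VALFinalA

set_option autoImplicit false
open ModularCurve

namespace Fermat.Agent.S37

/-- The values lemma (hypothesis-free). -/
theorem s37final_values : hi_ValuesStatement := hivd_main

/-- Chart presentation. -/
theorem s37final_chartPres : val_ChartPresStatement := vcp_main kr_modEqInt r_valQ r_inChart

/-- The key lemma. -/
theorem s37final_key : val_KeyStatement := vky_main (vvm_main s37final_values) s37final_chartPres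

/-- The multiset lemma. -/
theorem s37final_multiset : val_MultisetStatement := vms_main r_chartSurj r_valK r_datumExists

/-- Integrality. -/
theorem s37final_integrality : val_IntegralityStatement := vin_main kr_modEqInt vci_main

/-- The (R3) core statement. -/
theorem s37final_r3Core : val_R3CoreStatement :=
  vr3_main r_specChart r_inChart r_datumExists hi_fin s37final_chartPres vca_main s37final_integrality
    ra_specA vrc_main s37final_key s37final_multiset

/-- The (R4) core statement. -/
theorem s37final_r4Core : val_R4CoreStatement :=
  vs4_main r_specChart r_inChart r_datumExists hi_fin s37final_chartPres vca_main s37final_integrality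
    ra_specA ra_redRho vrc_main s37final_key s37final_multiset vtw_main (vk3_main kr_charpoly vrc_main)

/-- (R3), hypothesis-free. -/
theorem s37final_r3 : R3Statement := vfn_r3 hi_heckeDivSingle vkn_main s37final_r3Core

/-- (R4), hypothesis-free. -/
theorem s37final_r4 : R4Statement := vfn_r4 hi_heckeDivSingle s37final_r4Core

theorem result (N p : ℕ) [NeZero N] (hcomm : ModularCurve.HeckeOperatorsCommuteBar N) : letI := ModularCurve.heckeModuleBar N; ∀ (_ : SMulCommClass (AlgebraicClosure ℚ ≃ₐ[ℚ] AlgebraicClosure ℚ) ModularCurve.HeckeAlg (ModularCurve.JZero N)), ModularCurve.SpecializationExists (K := ℚ) (L := AlgebraicClosure ℚ) N p (ModularCurve.JZero N) :=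
  asmb_main r_spec cn_main (galb_main r_specUnique r_datumExists r_inChart) s37final_r3 s37final_r4
    hi_main r_datumExists N p hcomm

end Fermat.Agent.S37
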