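-- Statement S29 (row 28): a normalised weight-2 eigenform on Γ₀(N) has, for every prime p and every
-- ring homomorphism of ℤ̄ to a field k of characteristic p, an attached mod-p Galois representation
-- over k, unramified at all primes not dividing N p
-- (CuspForm.IsNormalizedEigenform.exists_residualGaloisRep_isAttachedTo).
import Fermat.Statements.S29
import Fermat.Agent.S29.Main
import Fermat.Agent.S29.Core
import Fermat.Agent.S29.Final

set_option autoImplicit false
open CuspForm CuspForm.IsNormalizedEigenform

namespace Fermat.Agent.S29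

theorem result
    {N : ℕ} {g : CuspForm (CongruenceSubgroup.Gamma0 N) 2} (hg : g.IsNormalizedEigenform)
    {p : ℕ} (hp : p.Prime) {k : Type} [Field k] [CharP k p]
    (φ : integralClosure ℤ ℂ →+* k) :
    ∃ ρ : ResidualGaloisRep k, ρ.IsAttachedTo g φ ∧
      ∀ ℓ : ℕ, ℓ.Prime → ¬ ℓ ∣ N * p → ρ.IsUnramifiedAt ℓ :=
  s29_final (s29_attachK_of_inputs s29_inputs_main) hg hp φ

end Fermat.Agent.S29
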