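-- Statement S42 (row 40): for the Frey package's prime p and every level M > 0, every weight-2
-- normalised eigenform on Γ₀(M) and maximal ideal over p has an attached 2-dimensional residual
-- Galois representation (FreyPackage.eigenformResidualAttachmentAtFamily).
import Fermat.Statements.S42
import Fermat.Agent.S42.Conditional
import Fermat.Agent.S42.H22Final

set_option autoImplicit false
open FreyPackage

namespace Fermat.Agent.S42

theorem result (P : FreyPackage) :
    ∀ M : ℕ, 0 < M → P.EigenformResidualAttachmentAt M :=
  s42_of_kum h22_N1 h22_N2 h22_N3 h22_N4 P

end Fermat.Agent.S42
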