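import Fermat.Statements.S49
-- import your own Fermat.Agent.* helpers here
import Fermat.Agent.S49.LinAlg
import Fermat.Agent.S49.Formal
import Fermat.Agent.S49.Eigenform
import Fermat.Agent.S49.Mod3

set_option autoImplicit false
open CuspForm EisensteinWeightOne CongruenceSubgroup ModularFormClass
open FLT FLT.AbstractIntegralStructure

namespace Fermat.Agent.S49

theorem result
    {N : ℕ} [NeZero N] (h : CuspForm.HasIntegralBasis N) {a : ℕ → ℤ}
    (heig : FormalHecke.IsEigensystem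
      (fun ℓ => if ℓ ∣ N then 0 else ((chiNegThree ℓ : ℤ) : ℤ)) a)
    (hreal : CuspForm.IsLatticeRealized N a) :
    ∃ (f : CuspForm (Gamma0 N) 2) (_ : f.IsNormalizedEigenform)
      (𝔪' : Ideal (integralClosure ℤ ℂ)), 𝔪'.IsMaximal ∧
      ((3 : ℕ) : integralClosure ℤ ℂ) ∈ 𝔪' ∧
      ∀ (ℓ : ℕ) (_ : ℓ.Prime) (_ : ¬ ℓ ∣ N),
        ∃ c : integralClosure ℤ ℂ, (c : ℂ) = ModularFormClass.qCoeff f ℓ ∧
          c - (a ℓ : integralClosure ℤ ℂ) ∈ 𝔪' := by
  -- the maximal ideal of the Hecke algebra cut out by the mod 3 eigensystem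
  obtain ⟨𝔫, h𝔫max, h3, hT𝔫⟩ := m3_exists_maximal heig hreal
  have hfd : FiniteDimensional ℂ (CuspForm (Gamma0 N) 2) := m3_finiteDimensional h
  -- a common eigenvector whose eigencharacter has kernel inside `𝔫`
  obtain ⟨g, μ, hg0, hgμ, hker⟩ := exists_eigenvector_ker_le_prime
    (CuspForm.heckeAlgebra N 2 ∅).val.toRingHom Subtype.val_injective 𝔫
  have hint : ∀ t, IsIntegral ℤ (μ t) := fun t => map_isIntegral_int μ (m3_isIntegral h t)
  -- lying over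
  obtain ⟨Q, hQmax, hQ⟩ := m3_lying_over μ hint 𝔫 hker
  -- the normalised eigenform
  obtain ⟨f, hf, hfT⟩ := exists_eigensystem_of_eigenvector g hg0
    (fun ℓ hℓ hℓN => ⟨μ (heckeAlgebra.T hℓ hℓN (Set.notMem_empty ℓ)),
      hgμ (heckeAlgebra.T hℓ hℓN (Set.notMem_empty ℓ))⟩)
    (fun q hq hqN => ⟨μ (heckeAlgebra.U hq hqN (Set.notMem_empty q)),
      hgμ (heckeAlgebra.U hq hqN (Set.notMem_empty q))⟩)
  have hrec := isRecursive_of_isEigensystem hf
  have hfℓ : ∀ (ℓ : ℕ) (hℓ : ℓ.Prime) (hℓN : ¬ ℓ ∣ N),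
      μ (heckeAlgebra.T hℓ hℓN (Set.notMem_empty ℓ)) = ModularFormClass.qCoeff f ℓ := by
    intro ℓ hℓ hℓN
    have h1 : μ (heckeAlgebra.T hℓ hℓN (Set.notMem_empty ℓ)) • g =
        ModularFormClass.qCoeff f ℓ • g := by
      rw [← hgμ, ← hfT ℓ hℓ hℓN]
      rfl
    exact smul_left_injective ℂ hg0 h1
  refine ⟨f, ⟨hrec.1, hrec.2.1, ?_, ?_⟩, Q, hQmax, ?_, ?_⟩
  · intro p r hp hpN
    have := hrec.2.2 p r hp
    simp only [if_neg hpN] at this
    exact this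
  · intro p r hp hpN
    have := hrec.2.2 p r hp
    simp only [if_pos hpN, zero_mul, sub_zero] at this
    exact this
  · refine hQ 3 h3 _ ?_
    rw [map_ofNat μ 3]
    push_cast
    rfl
  · intro ℓ hℓ hℓN
    refine ⟨⟨μ (heckeAlgebra.T hℓ hℓN (Set.notMem_empty ℓ)), hint _⟩, hfℓ ℓ hℓ hℓN, ?_⟩
    refine hQ _ (hT𝔫 ℓ hℓ hℓN) _ ?_
    simp

end Fermat.Agent.S49
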