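import Fermat.Statements.S51
import Fermat.Agent.S51.Galois
import Fermat.Agent.S51.Dioph
import Fermat.Agent.S51.DescentOdd
import Fermat.Agent.S51.DescentEven

set_option autoImplicit false
open WeierstrassCurve WeierstrassCurve.Affine WeierstrassCurve.Affine.Point
open CuspForm ModularFormClass UpperHalfPlane
open WeierstrassCurve

namespace Fermat.Agent.S51

/-- The rational points of the elliptic curve `n² = w⁴ - 7w² + 16` (a model of `X₀(15)`). -/
theorem res_quartic (w n : ℚ) (h : n ^ 2 = w ^ 4 - 7 * w ^ 2 + 16) : w = 0 ∨ w ^ 2 = 4 :=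
  dio_quartic_of_cases dodd_main deven_main w n h

theorem result (W : WeierstrassCurve ℤ) (hΔ : W.Δ ≠ 0) (hW : W.IsSemistableModel) : W.ModRepIsIrreducible 3 ∨ W.ModRepIsIrreducible 5 := by
  by_contra hcon
  rw [not_or] at hcon
  obtain ⟨h3, h5⟩ := hcon
  unfold WeierstrassCurve.ModRepIsIrreducible at h3 h5
  have hgal : @IsGalois ℚ _ (AlgebraicClosure ℚ) _ DivisionRing.toRatAlgebra :=
    @IsAlgClosure.isGalois ℚ (AlgebraicClosure ℚ) _ _ (AlgebraicClosure.instAlgebra ℚ)
      inferInstance _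
  have hΔ' : (W.map (Int.castRingHom ℚ)).Δ ≠ 0 := by
    rw [WeierstrassCurve.map_Δ]
    exact (map_ne_zero_iff _ (RingHom.injective_int (Int.castRingHom ℚ))).mpr hΔ
  obtain ⟨ρ, h, hρ, hh, hΦ, hj⟩ :=
    gal_main (K := AlgebraicClosure ℚ) (W.map (Int.castRingHom ℚ)) hΔ' h3 h5
  rw [WeierstrassCurve.map_c₄, WeierstrassCurve.map_Δ, eq_intCast, eq_intCast] at hj
  have hcl := dio_rho_h_classify res_quartic ρ h hρ hh hΦ
  exact dio_endgame W.c₄ W.Δ h hΔ (hW 5 Nat.prime_five) hj hcl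

end Fermat.Agent.S51
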